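import Fermat.Agent.ErdosMahler.Main

/-!
# The exceptional pairs of a monic form

A monic form of degree `k` has at most `k P (2 T ^ (1/k) + 1)` values up to `T` in a box of side
`P`, one factor `x - θ y` being small. A squarefree value carries `log p` at most at every prime
`p`, so few of them have a large part made of primes up to `P ^ δ`.
-/

set_option autoImplicit false

noncomputable section

open Polynomial Finset Filter
open scoped Topology

namespace FA.TwistHalf

open FA.ErdosMahler
open FA.RichertValues (rootMod rootMod_prime_eq_card_roots)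

variable {f : ℤ[X]}

theorem rootMod_prime_le_natDegree (hmon : f.Monic) {p : ℕ} (hp : p.Prime) :
    rootMod f p ≤ f.natDegree := by
  have := Fact.mk hp
  rw [rootMod_prime_eq_card_roots f (hmon.map _).ne_zero]
  exact (Multiset.toFinset_card_le _).trans ((card_roots' _).trans natDegree_map_le)

theorem smoothLog_of_squarefree {z m : ℕ} (h : Squarefree m) :
    smoothLog z m = ∑ p ∈ (Icc 1 z).filter Nat.Prime, if p ∣ m then Real.log p else 0 := by
  refine sum_congr rfl fun p hp => ?_
  have hp' := (mem_filter.1 hp).2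
  by_cases hd : p ∣ m
  · rw [if_pos hd, le_antisymm (h.natFactorization_le_one p)
      (hp'.factorization_pos_of_dvd h.ne_zero hd), Nat.cast_one, one_mul]
  · rw [if_neg hd, Nat.factorization_eq_zero_of_not_dvd hd, Nat.cast_zero, zero_mul]

/-- **The first moment over the squarefree values.** -/
theorem squarefree_smooth_sum_le (hmon : f.Monic) (P z : ℕ) :
    ∑ v ∈ (pairs 1 P).filter (fun v => Squarefree (value f v)), smoothLog z (value f v) ≤
      (f.natDegree : ℝ) * (P : ℝ) ^ 2 * (Real.log z + 6) +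
        f.natDegree * P * ((z : ℝ) * z) := by
  set k := f.natDegree
  set S := (pairs 1 P).filter fun v => Squarefree (value f v)
  set Ps := (Icc 1 z).filter Nat.Prime with hPs
  have hlead : f.leadingCoeff.natAbs = 1 := by rw [hmon.leadingCoeff]; rfl
  have hterm : ∀ p ∈ Ps, ((S.filter fun v => p ∣ value f v).card : ℝ) * Real.log p ≤
      (k : ℝ) * (P : ℝ) ^ 2 * (Real.log p / p) + k * P * z := by
    intro p hp
    obtain ⟨hpz, hp'⟩ := mem_filter.1 hp
    have hl : 0 ≤ Real.log p := Real.log_natCast_nonneg p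
    have hlz : Real.log p ≤ z := (Real.log_le_self (Nat.cast_nonneg p)).trans
      (Nat.cast_le.2 (mem_Icc.1 hpz).2)
    have hQ : rootMod f (p ^ 1) ≤ k := by
      rw [pow_one]; exact rootMod_prime_le_natDegree hmon hp'
    have h := pow_dvd_card (n := P) hlead.symm hp' le_rfl hQ
    rw [pow_one] at h
    have h' : ((S.filter fun v => p ∣ value f v).card : ℝ) ≤ P * (k * ((P : ℝ) / p + 1)) :=
      le_trans (Nat.cast_le.2 (card_le_card (filter_subset_filter _ (filter_subset _ _)))) h
    refine (mul_le_mul_of_nonneg_right h' hl).trans ?_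
    have h2 := mul_le_mul_of_nonneg_left hlz (show (0 : ℝ) ≤ (k : ℝ) * P by positivity)
    rw [show (P : ℝ) * (k * ((P : ℝ) / p + 1)) * Real.log p =
      (k : ℝ) * (P : ℝ) ^ 2 * (Real.log p / p) + k * P * Real.log p by ring]
    linarith
  calc ∑ v ∈ S, smoothLog z (value f v)
      = ∑ v ∈ S, ∑ p ∈ Ps, if p ∣ value f v then Real.log p else 0 :=
        sum_congr rfl fun v hv => smoothLog_of_squarefree (mem_filter.1 hv).2
    _ = ∑ p ∈ Ps, ((S.filter fun v => p ∣ value f v).card : ℝ) * Real.log p := by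
        rw [sum_comm]
        refine sum_congr rfl fun p _ => ?_
        rw [← sum_filter, sum_const, nsmul_eq_mul]
    _ ≤ _ := sum_le_sum hterm
    _ ≤ _ := by
        rw [sum_add_distrib, ← mul_sum, sum_const, nsmul_eq_mul]
        refine add_le_add (mul_le_mul_of_nonneg_left (CasselsHurwitz.sum_log_div_primes_le z)
          (by positivity)) ?_
        calc (Ps.card : ℝ) * ((k : ℝ) * P * z) ≤ (z : ℝ) * ((k : ℝ) * P * z) := by
              refine mul_le_mul_of_nonneg_right (Nat.cast_le.2 ?_) (by positivity)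
              exact (card_filter_le _ _).trans_eq (by simp)
          _ = _ := by ring

theorem pow_card_lt_prod {s : ℝ} (hs : 0 < s) (m : Multiset ℝ) (h : ∀ a ∈ m, s < a)
    (hm : m ≠ 0) : s ^ m.card < m.prod := by
  have hle : ∀ m : Multiset ℝ, (∀ a ∈ m, s < a) → s ^ m.card ≤ m.prod := by
    intro m
    induction m using Multiset.induction_on with
    | empty => simp
    | cons a m ih =>
      intro h
      rw [Multiset.card_cons, Multiset.prod_cons, pow_succ']
      exact mul_le_mul (h a (Multiset.mem_cons_self a m)).le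
        (ih fun b hb => h b (Multiset.mem_cons_of_mem hb)) (by positivity)
        (hs.trans (h a (Multiset.mem_cons_self a m))).le
  obtain ⟨a, ha⟩ := Multiset.exists_mem_of_ne_zero hm
  obtain ⟨t, rfl⟩ := Multiset.exists_cons_of_mem ha
  rw [Multiset.card_cons, Multiset.prod_cons, pow_succ']
  exact (mul_lt_mul_of_pos_right (h a (Multiset.mem_cons_self a t)) (by positivity)).trans_le
    (mul_le_mul_of_nonneg_left (hle t fun b hb => h b (Multiset.mem_cons_of_mem hb))
      (hs.trans (h a (Multiset.mem_cons_self a t))).le)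

/-- **Small values are few.** -/
theorem small_values_card (hmon : f.Monic) (hk : f.natDegree ≠ 0) (P : ℕ) {s : ℝ} (hs : 0 < s) :
    (((Icc 1 P ×ˢ Icc 1 P).filter fun v => (value f v : ℝ) ≤ s ^ f.natDegree).card : ℝ) ≤
      P * (f.natDegree * (2 * s + 1)) := by
  classical
  set g := f.map (Int.castRingHom ℂ) with hg
  set R := g.roots.toFinset
  have hgm : g.Monic := hmon.map _
  have hsplit : g.Splits := IsAlgClosed.splits g
  have hcard : g.roots.card = f.natDegree := by
    rw [← hsplit.natDegree_eq_card_roots, hg, natDegree_map_eq_of_injective Int.cast_injective]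
  set A : ℂ × ℕ → Finset ℕ := fun u => (Icc 1 P).filter fun x : ℕ => |(x : ℝ) - u.1.re * u.2| ≤ s
  have hA : ∀ u, ((A u).card : ℝ) ≤ 2 * s + 1 := fun u => by
    rcases (A u).eq_empty_or_nonempty with he | hne
    · rw [he, card_empty, Nat.cast_zero]; positivity
    obtain ⟨-, h0⟩ := mem_filter.1 (min'_mem (A u) hne)
    have hsub : A u ⊆ Icc ((A u).min' hne) ((A u).min' hne + ⌊2 * s⌋₊) := fun x hx => by
      refine mem_Icc.2 ⟨min'_le _ _ hx, ?_⟩
      have h1 := (mem_filter.1 hx).2
      rw [abs_le] at h0 h1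
      have hle := min'_le _ _ hx
      have h2 : x - (A u).min' hne ≤ ⌊2 * s⌋₊ := Nat.le_floor (by
        rw [Nat.cast_sub hle]; linarith)
      omega
    refine le_trans (Nat.cast_le.2 (card_le_card hsub)) ?_
    rw [Nat.card_Icc, show (A u).min' hne + ⌊2 * s⌋₊ + 1 - (A u).min' hne = ⌊2 * s⌋₊ + 1 by omega]
    push_cast
    linarith [Nat.floor_le (show 0 ≤ 2 * s by positivity)]
  have hsub : (Icc 1 P ×ˢ Icc 1 P).filter (fun v => (value f v : ℝ) ≤ s ^ f.natDegree) ⊆
      (R ×ˢ Icc 1 P).biUnion fun u => (A u).image fun x => (x, u.2) := by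
    intro v hv
    obtain ⟨hv1, hv2⟩ := mem_filter.1 hv
    obtain ⟨hx, hy⟩ := mem_product.1 hv1
    have hy0 : (v.2 : ℤ) ≠ 0 := by
      have := (mem_Icc.1 hy).1
      omega
    have hyC : (v.2 : ℂ) ≠ 0 := by exact_mod_cast hy0
    have heq : (value f v : ℝ) = (g.roots.map fun θ => ‖(v.1 : ℂ) - θ * v.2‖).prod := by
      have h := Thue.form_eq_mul (K := ℂ) f (v.1 : ℤ) (v.2 : ℤ) hy0
      rw [← hg, hsplit.eq_prod_roots_of_monic hgm] at h
      simp only [eval_multiset_prod, Multiset.map_map, Function.comp_def, eval_sub, eval_X, eval_C,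
        Int.cast_natCast] at h
      have h' : (Thue.form f v.1 v.2 : ℂ) =
          (g.roots.map fun θ => ((v.1 : ℂ) - θ * v.2)).prod := by
        rw [h, ← hcard, ← Multiset.prod_replicate, ← Multiset.map_const', ← Multiset.prod_map_mul]
        exact congrArg _ (Multiset.map_congr rfl fun θ _ => by field_simp)
      calc (value f v : ℝ) = ‖(Thue.form f v.1 v.2 : ℂ)‖ := by
            rw [Complex.norm_intCast, value, Nat.cast_natAbs, Int.cast_abs]
        _ = _ := by
            rw [h', ← normHom_apply, map_multiset_prod, Multiset.map_map]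
            rfl
    obtain ⟨θ, hθ, hθs⟩ : ∃ θ ∈ g.roots, ‖(v.1 : ℂ) - θ * v.2‖ ≤ s := by
      by_contra hall
      push Not at hall
      have h := pow_card_lt_prod hs (g.roots.map fun θ => ‖(v.1 : ℂ) - θ * v.2‖)
        (fun a ha => by
          obtain ⟨θ, hθ, rfl⟩ := Multiset.mem_map.1 ha
          exact hall θ hθ)
        (fun h0 => hk (by rw [← hcard]; simpa using congrArg Multiset.card h0))
      rw [Multiset.card_map, hcard, ← heq] at h
      linarith
    refine mem_biUnion.2 ⟨(θ, v.2), mem_product.2 ⟨Multiset.mem_toFinset.2 hθ, hy⟩,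
      mem_image.2 ⟨v.1, mem_filter.2 ⟨hx, ?_⟩, rfl⟩⟩
    refine le_trans (le_of_eq ?_) ((Complex.abs_re_le_norm _).trans hθs)
    simp
  calc (((Icc 1 P ×ˢ Icc 1 P).filter fun v => (value f v : ℝ) ≤ s ^ f.natDegree).card : ℝ)
      ≤ ∑ u ∈ R ×ˢ Icc 1 P, ((A u).card : ℝ) := by
        exact_mod_cast (card_le_card hsub).trans
          (card_biUnion_le.trans (sum_le_sum fun u _ => card_image_le))
    _ ≤ ∑ _u ∈ R ×ˢ Icc 1 P, (2 * s + 1) := sum_le_sum fun u _ => hA u
    _ ≤ _ := by
        rw [sum_const, nsmul_eq_mul, card_product, Nat.card_Icc, Nat.add_sub_cancel, Nat.cast_mul,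
          mul_comm (R.card : ℝ), mul_assoc]
        refine mul_le_mul_of_nonneg_left (mul_le_mul_of_nonneg_right (Nat.cast_le.2 ?_)
          (by positivity)) (by positivity)
        exact (Multiset.toFinset_card_le _).trans_eq hcard

/-- The pairs with a squarefree value of large smooth part, and those with a small value. -/
def exceptional (f : ℤ[X]) (δ : ℝ) (P : ℕ) : Finset (ℕ × ℕ) :=
  ((pairs 1 P).filter fun v => Squarefree (value f v) ∧
      Real.log P / 4 < smoothLog ⌊(P : ℝ) ^ δ⌋₊ (value f v)) ∪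
    (Icc 1 P ×ˢ Icc 1 P).filter fun v =>
      (value f v : ℝ) ≤ (P : ℝ) ^ ((f.natDegree : ℝ) - 1 / 2)

/-- **Few pairs are exceptional.** -/
theorem exists_eventually_exceptional (hmon : f.Monic) (hk : f.natDegree ≠ 0) {ε : ℝ}
    (hε : 0 < ε) :
    ∃ δ : ℝ, 0 < δ ∧ ∀ᶠ P : ℕ in atTop, ((exceptional f δ P).card : ℝ) ≤ ε * (P : ℝ) ^ 2 := by
  set k := f.natDegree with hkdef
  have hk0 : (0 : ℝ) < k := Nat.cast_pos.2 (Nat.pos_of_ne_zero hk)
  set δ : ℝ := min (1 / 8) (ε / (16 * k)) with hδ
  have hδ0 : 0 < δ := lt_min (by norm_num) (by positivity)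
  refine ⟨δ, hδ0, ?_⟩
  set t : ℝ := ((k : ℝ) - 1 / 2) / k with ht
  have ht1 : t < 1 := by rw [ht, div_lt_one hk0]; linarith
  have hsmall : ∀ᶠ P : ℕ in atTop,
      (P : ℝ) * (k * (2 * (P : ℝ) ^ t + 1)) ≤ ε / 2 * (P : ℝ) ^ 2 := by
    have h := ((tendsto_rpow_neg_atTop (show (0 : ℝ) < 1 - t by linarith)).comp
      tendsto_natCast_atTop_atTop).eventually
      (eventually_le_nhds (show (0 : ℝ) < ε / (8 * k) by positivity))
    filter_upwards [h, (tendsto_natCast_atTop_atTop (R := ℝ)).eventually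
      (eventually_ge_atTop (4 * k / ε)), eventually_gt_atTop 0] with P h1 h2 hP
    have hP0 : (0 : ℝ) < P := Nat.cast_pos.2 hP
    simp only [Function.comp_apply, neg_sub] at h1
    rw [Real.rpow_sub_one hP0.ne', div_le_div_iff₀ hP0 (by positivity)] at h1
    rw [div_le_iff₀ hε] at h2
    have h3 := mul_le_mul_of_nonneg_left h2 hP0.le
    have h4 := mul_le_mul_of_nonneg_left h1 hP0.le
    linarith [show (P : ℝ) * (ε * P) = ε * (P : ℝ) ^ 2 by ring]
  have hlog : ∀ᶠ P : ℕ in atTop, 16 * (7 * (k : ℝ)) / ε + 1 ≤ Real.log P :=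
    (Real.tendsto_log_atTop.comp tendsto_natCast_atTop_atTop).eventually (eventually_ge_atTop _)
  filter_upwards [hsmall, hlog, eventually_ge_atTop 1] with P hsm hl hP
  have hP1 : (1 : ℝ) ≤ P := Nat.one_le_cast.2 hP
  have hP0 : (0 : ℝ) < P := by linarith
  have hl0 : 0 < Real.log P := by
    have : (0 : ℝ) ≤ 16 * (7 * (k : ℝ)) / ε := by positivity
    linarith
  set z := ⌊(P : ℝ) ^ δ⌋₊ with hz
  have hzle : (z : ℝ) ≤ (P : ℝ) ^ δ := Nat.floor_le (by positivity)
  have hzlog : Real.log z ≤ δ * Real.log P := by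
    rcases Nat.eq_zero_or_pos z with h | h
    · rw [h, Nat.cast_zero, Real.log_zero]; positivity
    · rw [← Real.log_rpow hP0]
      exact Real.log_le_log (Nat.cast_pos.2 h) hzle
  have hzz : (z : ℝ) * z ≤ P := by
    refine (mul_le_mul hzle hzle (Nat.cast_nonneg _) (by positivity)).trans ?_
    rw [← Real.rpow_add hP0]
    exact (Real.rpow_le_rpow_of_exponent_le hP1
      (by linarith [min_le_left (1 / 8 : ℝ) (ε / (16 * k))])).trans_eq (Real.rpow_one _)
  have hrough : ((((pairs 1 P).filter fun v => Squarefree (value f v) ∧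
      Real.log P / 4 < smoothLog z (value f v)).card : ℕ) : ℝ) ≤ ε / 2 * (P : ℝ) ^ 2 := by
    rw [← filter_filter]
    set S := (pairs 1 P).filter fun v => Squarefree (value f v)
    set T := S.filter fun v => Real.log P / 4 < smoothLog z (value f v)
    have h1 : (T.card : ℝ) * (Real.log P / 4) ≤ ∑ v ∈ S, smoothLog z (value f v) := by
      rw [← nsmul_eq_mul, ← sum_const]
      exact (sum_le_sum fun v hv => (mem_filter.1 hv).2.le).trans
        (sum_le_sum_of_subset_of_nonneg (filter_subset _ _) fun v _ _ => smoothLog_nonneg _ _)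
    have h1' := h1.trans (squarefree_smooth_sum_le hmon P z)
    rw [← hkdef] at h1'
    have h2 : (k : ℝ) * δ ≤ ε / 16 := by
      have h3 : δ * (16 * k) ≤ ε :=
        (le_div_iff₀ (by positivity)).1 (min_le_right (1 / 8 : ℝ) _)
      linarith
    have h4 := mul_le_mul_of_nonneg_left hzlog (show (0 : ℝ) ≤ k * (P : ℝ) ^ 2 by positivity)
    have h5 := mul_le_mul_of_nonneg_right h2 (show (0 : ℝ) ≤ P ^ 2 * Real.log P by positivity)
    have h6 : 16 * (7 * (k : ℝ)) ≤ ε * Real.log P := by
      rw [← le_sub_iff_add_le, div_le_iff₀ hε] at hl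
      nlinarith
    have h7 := mul_le_mul_of_nonneg_left h6 (sq_nonneg (P : ℝ))
    have h8 := mul_le_mul_of_nonneg_left hzz (show (0 : ℝ) ≤ k * P by positivity)
    refine le_of_mul_le_mul_right ?_ (show (0 : ℝ) < Real.log P / 4 by positivity)
    linarith [show (k : ℝ) * P * P = k * (P : ℝ) ^ 2 by ring]
  have htiny : ((((Icc 1 P ×ˢ Icc 1 P).filter fun v =>
      (value f v : ℝ) ≤ (P : ℝ) ^ ((k : ℝ) - 1 / 2)).card : ℕ) : ℝ) ≤ ε / 2 * (P : ℝ) ^ 2 := by
    have e : (P : ℝ) ^ ((k : ℝ) - 1 / 2) = ((P : ℝ) ^ t) ^ k := by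
      rw [← Real.rpow_natCast _ k, ← Real.rpow_mul hP0.le, ht, div_mul_cancel₀ _ hk0.ne']
    rw [e]
    exact (small_values_card hmon hk P (Real.rpow_pos_of_pos hP0 t)).trans hsm
  calc ((exceptional f δ P).card : ℝ) ≤ _ := Nat.cast_le.2 (card_union_le _ _)
    _ ≤ ε / 2 * (P : ℝ) ^ 2 + ε / 2 * (P : ℝ) ^ 2 := by
        push_cast
        exact add_le_add hrough htiny
    _ = _ := by ring

end FA.TwistHalf

end
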