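import Fermat.Agent.TwistHalf.Squarefree
import Fermat.Agent.TwistHalf.Exceptional

/-!
# The distinct squarefree values

For most coprime pairs up to `P` the primes above `P ^ δ` carry a factor above `P ^ (9/4)` of
`F (x, y)`. In a squarefree `y F (x, y)` there are boundedly many of them; pairs with the same
residues modulo all of them have determinant zero, so every value has boundedly many pairs.
-/

set_option autoImplicit false

noncomputable section

open Polynomial Finset Filter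
open scoped Topology

namespace FA.TwistHalf

open FA.ErdosMahler
open FA.RichertValues (rootMod)

variable {f : ℤ[X]}

theorem value_le_cube (hdeg : f.natDegree = 3) {P : ℕ} {v : ℕ × ℕ} (h1 : v.1 ≤ P) (h2 : v.2 ≤ P) :
    value f v ≤ (∑ i ∈ range 4, (f.coeff i).natAbs) * P ^ 3 := by
  have h := value_le f h1 h2
  rwa [hdeg] at h

/-- **A squarefree value with a large part of few primes has few pairs.** -/
theorem value_fibre_card {P z T Q m : ℕ} (hQ : ∀ p : ℕ, p.Prime → rootMod f p ≤ Q)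
    (S : Finset (ℕ × ℕ)) (hS : S ⊆ pairs 1 P) (hval : ∀ v ∈ S, twistValue f v = m)
    (hT : (largePrimes z m).card ≤ T) (hbig : 2 * P * (2 * P) < ∏ p ∈ largePrimes z m, p) :
    S.card ≤ (Q + 1) ^ T := by
  classical
  set Ps := largePrimes z m
  have hp : ∀ p ∈ Ps, p.Prime := fun p hp => Nat.prime_of_mem_primeFactors (mem_filter.1 hp).1
  set code : ℕ × ℕ → ℕ → ℕ := fun v p => if p ∣ v.2 then p else ratioMod p v.1 v.2 with hcode
  refine (card_le_card_of_injOn (fun v p (_ : p ∈ Ps) => code v p)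
    (t := Ps.pi fun p => insert p ((range p).filter fun r : ℕ => (p : ℤ) ∣ f.eval (r : ℤ)))
    (fun v hv => mem_pi.2 fun p hp' => ?_) fun v hv v' hv' e => ?_).trans ?_
  · show code v p ∈ _
    have : NeZero p := ⟨(hp p hp').ne_zero⟩
    by_cases h : p ∣ v.2
    · rw [hcode]; simp [h]
    · have hy : v.2.Coprime p := ((hp p hp').coprime_iff_not_dvd.2 h).symm
      have hF : p ∣ value f v := by
        have h1 := Nat.dvd_of_mem_primeFactors (mem_filter.1 hp').1
        rw [← hval v hv, twistValue] at h1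
        exact ((hp p hp').dvd_mul.1 h1).resolve_left h
      simp only [hcode, if_neg h]
      exact mem_insert_of_mem (mem_filter.2 ⟨mem_range.2 (ZMod.val_lt _),
        ratioMod_root (hp p hp').pos hy (Int.natCast_dvd.2 hF)⟩)
  · obtain ⟨hx1, hx2, hy1, hy2, hc, -⟩ := mem_pairs (hS hv)
    obtain ⟨hx1', hx2', hy1', hy2', hc', -⟩ := mem_pairs (hS hv')
    have hdvd : ∀ p ∈ Ps, (p : ℤ) ∣ (v.1 : ℤ) * v'.2 - v'.1 * v.2 := fun p hp' => by
      have : NeZero p := ⟨(hp p hp').ne_zero⟩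
      have e' : code v p = code v' p := congrFun (congrFun e p) hp'
      simp only [hcode] at e'
      by_cases h : p ∣ v.2 <;> by_cases h' : p ∣ v'.2
      · exact ((Int.natCast_dvd_natCast.2 h').mul_left _).sub
          ((Int.natCast_dvd_natCast.2 h).mul_left _)
      · rw [if_pos h, if_neg h'] at e'
        exact absurd e'.symm (ZMod.val_lt _).ne
      · rw [if_neg h, if_pos h'] at e'
        exact absurd e' (ZMod.val_lt _).ne
      · rw [if_neg h, if_neg h'] at e'
        have hy := ((hp p hp').coprime_iff_not_dvd.2 h).symm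
        have hy' := ((hp p hp').coprime_iff_not_dvd.2 h').symm
        rw [← ZMod.intCast_zmod_eq_zero_iff_dvd]
        push_cast
        rw [← ratioMod_mul (x := v.1) (hp p hp').pos hy,
          ← ratioMod_mul (x := v'.1) (hp p hp').pos hy', e']
        ring
    have hprod : ((∏ p ∈ Ps, p : ℕ) : ℤ) ∣ (v.1 : ℤ) * v'.2 - v'.1 * v.2 := by
      rw [Nat.cast_prod]
      refine Finset.prod_dvd_of_coprime (fun p hp' q hq hne => ?_) hdvd
      show IsCoprime ((p : ℕ) : ℤ) ((q : ℕ) : ℤ)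
      exact Int.isCoprime_iff_nat_coprime.2
        (by simpa using (Nat.coprime_primes (hp p hp') (hp q hq)).2 hne)
    have hdet : (v.1 : ℤ) * v'.2 - v'.1 * v.2 = 0 := by
      refine Int.eq_zero_of_abs_lt_dvd hprod ?_
      have h1 : v.1 * v'.2 ≤ 2 * P * (2 * P) := Nat.mul_le_mul (by omega) (by omega)
      have h2 : v'.1 * v.2 ≤ 2 * P * (2 * P) := Nat.mul_le_mul (by omega) (by omega)
      zify at h1 h2 hbig
      rw [abs_lt]
      push_cast
      constructor <;> linarith [mul_nonneg (Int.natCast_nonneg v.1) (Int.natCast_nonneg v'.2),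
        mul_nonneg (Int.natCast_nonneg v'.1) (Int.natCast_nonneg v.2)]
    have he : v.1 * v'.2 = v'.1 * v.2 := by exact_mod_cast sub_eq_zero.1 hdet
    have h1 : v.1 = v'.1 := Nat.dvd_antisymm (hc.dvd_of_dvd_mul_right ⟨v'.2, he.symm⟩)
      (hc'.dvd_of_dvd_mul_right ⟨v.2, he⟩)
    refine Prod.ext h1 (Nat.eq_of_mul_eq_mul_left hx1 ?_)
    rw [he, h1]
  · rw [card_pi]
    calc ∏ p ∈ Ps, (insert p ((range p).filter fun r : ℕ => (p : ℤ) ∣ f.eval (r : ℤ))).card
        ≤ ∏ _p ∈ Ps, (Q + 1) := prod_le_prod' fun p hp' => (card_insert_le _ _).trans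
          (Nat.succ_le_succ (hQ p (hp p hp')))
      _ = (Q + 1) ^ Ps.card := prod_const _
      _ ≤ _ := Nat.pow_le_pow_right (Nat.succ_pos Q) hT

/-- The pairs kept. -/
def goodPairs (f : ℤ[X]) (δ : ℝ) (W n : ℕ) : Finset (ℕ × ℕ) :=
  (range n ×ˢ range n).filter fun w => Squarefree (twistValue f (pt W w)) ∧
    pt W w ∉ exceptional f δ (W ^ 2 * n)

/-- Their values. -/
def goodValues (f : ℤ[X]) (δ : ℝ) (W n : ℕ) : Finset ℕ :=
  (goodPairs f δ W n).image fun w => twistValue f (pt W w)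

theorem exists_eventually_goodValues (hsep : (f.map (Int.castRingHom ℚ)).Separable)
    (hmon : f.Monic) (hdeg : f.natDegree = 3) : ∃ (W : ℕ) (δ : ℝ) (C : ℕ), 0 < W ∧ 0 < C ∧
      ∀ᶠ n : ℕ in atTop, (n : ℝ) ^ 2 / 2 ≤ C * (goodValues f δ W n).card := by
  obtain ⟨W, hW, hnsq⟩ := exists_eventually_nonsquarefree hsep hmon hdeg
  obtain ⟨δ, hδ, hexc⟩ := exists_eventually_exceptional hmon (by omega)
    (show (0 : ℝ) < 1 / (20 * (W : ℝ) ^ 4) by positivity)
  obtain ⟨Q, hQ⟩ : ∃ Q, ∀ p : ℕ, p.Prime → rootMod f p ≤ Q :=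
    ⟨_, fun p hp => rootMod_prime_le_natDegree hmon hp⟩
  set K := ∑ i ∈ range 4, (f.coeff i).natAbs
  set T := ⌈5 / δ⌉₊
  have htP : Tendsto (fun n : ℕ => W ^ 2 * n) atTop atTop :=
    tendsto_id.const_mul_atTop' (pow_pos hW 2)
  have hbigev : ∀ᶠ n : ℕ in atTop,
      ((16 * K + 5 : ℕ) : ℝ) ≤ ((W ^ 2 * n : ℕ) : ℝ) ^ (1 / 4 : ℝ) :=
    (((tendsto_rpow_atTop (by norm_num)).comp tendsto_natCast_atTop_atTop).comp htP).eventually
      (eventually_ge_atTop _)
  refine ⟨W, δ, (Q + 1) ^ T, hW, pow_pos (Nat.succ_pos Q) T, ?_⟩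
  filter_upwards [hnsq, htP.eventually hexc, hbigev, eventually_ge_atTop 2] with n h1 h2 hbig hn
  set P := W ^ 2 * n with hP
  have hP2 : 2 ≤ P := hn.trans (Nat.le_mul_of_pos_left n (pow_pos hW 2))
  -- many good pairs
  have hcover : range n ×ˢ range n ⊆ goodPairs f δ W n ∪ (nonsquarefree f W n ∪
      (range n ×ˢ range n).filter fun w => pt W w ∈ exceptional f δ P) := fun w hw => by
    by_cases hsq : Squarefree (twistValue f (pt W w))
    · by_cases hex : pt W w ∈ exceptional f δ P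
      · exact mem_union_right _ (mem_union_right _ (mem_filter.2 ⟨hw, hex⟩))
      · exact mem_union_left _ (mem_filter.2 ⟨hw, hsq, hex⟩)
    · by_cases h0 : value f (pt W w) = 0
      · refine mem_union_right _ (mem_union_right _ (mem_filter.2 ⟨hw, mem_union_right _ ?_⟩))
        obtain ⟨a, b, c, d⟩ := pt_bounds hW hw
        refine mem_filter.2 ⟨mem_product.2 ⟨mem_Icc.2 ⟨a, b⟩, mem_Icc.2 ⟨c, d⟩⟩, ?_⟩
        rw [h0, Nat.cast_zero]
        positivity
      · exact mem_union_right _ (mem_union_left _ (mem_filter.2 ⟨hw, hsq, h0⟩))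
  have hexcard : (((range n ×ˢ range n).filter fun w =>
      pt W w ∈ exceptional f δ P).card : ℝ) ≤ 1 / 20 * (n : ℝ) ^ 2 := by
    refine le_trans (Nat.cast_le.2 (card_le_card_of_injOn (pt W)
      (fun w hw => (mem_filter.1 hw).2) (pt_injective hW).injOn)) (h2.trans_eq ?_)
    rw [hP]
    push_cast
    field_simp
  have hgood : (4 / 5 : ℝ) * (n : ℝ) ^ 2 ≤ (goodPairs f δ W n).card := by
    have h : (n : ℝ) * n ≤ ((goodPairs f δ W n).card : ℝ) + (((nonsquarefree f W n).card : ℝ) +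
        (((range n ×ˢ range n).filter fun w => pt W w ∈ exceptional f δ P).card : ℝ)) := by
      have h := (card_le_card hcover).trans
        ((card_union_le _ _).trans (Nat.add_le_add_left (card_union_le _ _) _))
      rw [card_product, card_range] at h
      exact_mod_cast h
    linarith [show (n : ℝ) * n = (n : ℝ) ^ 2 by ring]
  -- few pairs with one value
  have hfib : ∀ m, ((goodPairs f δ W n).filter fun w => twistValue f (pt W w) = m).card ≤
      (Q + 1) ^ T := by
    intro m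
    set S := (goodPairs f δ W n).filter fun w => twistValue f (pt W w) = m with hS
    rcases S.eq_empty_or_nonempty with he | ⟨w₀, hw₀⟩
    · rw [he, card_empty]; exact Nat.zero_le _
    have hmem : ∀ w ∈ S, pt W w ∈ pairs 1 P ∧ twistValue f (pt W w) = m := fun w hw => by
      obtain ⟨hw1, hw2⟩ := mem_filter.1 hw
      obtain ⟨hw3, hsq, -⟩ := mem_filter.1 hw1
      obtain ⟨a, b, c, d⟩ := pt_bounds hW hw3
      exact ⟨mem_coprime_pairs a b c d (coprime_of_squarefree (by omega) hsq), hw2⟩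
    obtain ⟨hv, hvm⟩ := hmem w₀ hw₀
    obtain ⟨hw3, hsq, hnex⟩ := mem_filter.1 (mem_filter.1 hw₀).1
    set v := pt W w₀ with hv0
    have hsmooth : smoothLog ⌊(P : ℝ) ^ δ⌋₊ (value f v) ≤ Real.log P / 4 := not_lt.1 fun h =>
      hnex (mem_union_left _ (mem_filter.2 ⟨hv, hsq.squarefree_of_dvd (dvd_mul_left _ _), h⟩))
    have hlarge : (P : ℝ) ^ (5 / 2 : ℝ) < (value f v : ℝ) := not_le.1 fun h => hnex <| by
      obtain ⟨a, b, c, d⟩ := pt_bounds hW hw3
      refine mem_union_right _ (mem_filter.2 ⟨mem_product.2 ⟨mem_Icc.2 ⟨a, b⟩, mem_Icc.2 ⟨c, d⟩⟩,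
        h.trans_eq ?_⟩)
      rw [hdeg, hP]
      norm_num
    set z := ⌊(P : ℝ) ^ δ⌋₊
    have hP0 : (0 : ℝ) < P := Nat.cast_pos.2 (by omega)
    have hl : 0 < Real.log P := Real.log_pos (Nat.one_lt_cast.2 hP2)
    have hm0 : m ≠ 0 := hvm ▸ hsq.ne_zero
    have hrough : roughPart z (value f v) ≤ ∏ p ∈ largePrimes z m, p := by
      have hsub : largePrimes z (value f v) ⊆ largePrimes z m := fun p hp => by
        obtain ⟨hp1, hp2⟩ := mem_filter.1 hp
        refine mem_filter.2 ⟨Nat.mem_primeFactors.2 ⟨Nat.prime_of_mem_primeFactors hp1,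
          (Nat.dvd_of_mem_primeFactors hp1).trans ?_, hm0⟩, hp2⟩
        rw [← hvm, twistValue]
        exact dvd_mul_left _ _
      rw [roughPart]
      refine le_trans (prod_le_prod' fun p hp => ?_)
        (prod_le_prod_of_subset_of_one_le' hsub fun p hp _ =>
          (Nat.prime_of_mem_primeFactors (mem_filter.1 hp).1).one_le)
      have hp' := Nat.prime_of_mem_primeFactors (mem_filter.1 hp).1
      exact (Nat.pow_le_pow_right hp'.pos
        ((hsq.squarefree_of_dvd (dvd_mul_left _ _)).natFactorization_le_one p)).trans_eq (pow_one p)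
    have hbigreal : (P : ℝ) ^ (9 / 4 : ℝ) < (roughPart z (value f v) : ℝ) := by
      have hpos : (0 : ℝ) < roughPart z (value f v) := Nat.cast_pos.2 (prod_pos fun p hp =>
        pow_pos (Nat.prime_of_mem_primeFactors (mem_filter.1 hp).1).pos _)
      rw [← Real.log_lt_log_iff (by positivity) hpos, Real.log_rpow hP0]
      have e1 := log_split (z := z) (m := value f v)
      have e2 := Real.log_lt_log (by positivity) hlarge
      rw [Real.log_rpow hP0] at e2
      linarith
    have hmle : m ≤ 16 * K * P ^ 4 := by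
      obtain ⟨-, a, -, b, -⟩ := mem_pairs hv
      have h := value_le_cube hdeg (P := 2 * P) (v := v) (by omega) (by omega)
      rw [← hvm, twistValue]
      calc v.2 * value f v ≤ 2 * P * (K * (2 * P) ^ 3) := Nat.mul_le_mul (by omega) h
        _ = _ := by ring
    have hPbig : ((16 * K + 5 : ℕ) : ℝ) ≤ (P : ℝ) ^ (1 / 4 : ℝ) := hbig
    push_cast at hPbig
    have hT : (largePrimes z m).card ≤ T := by
      have e1 := largePrimes_log_le (z := z) hm0 (L := δ * Real.log P) fun p hp => by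
        rw [← Real.log_rpow hP0]
        exact Real.log_le_log (by positivity)
          ((Nat.lt_floor_add_one _).le.trans (by exact_mod_cast hp))
      have e2 : Real.log m ≤ 5 * Real.log P := by
        refine (Real.log_le_log (Nat.cast_pos.2 (Nat.pos_of_ne_zero hm0))
          (y := (P : ℝ) ^ 5) ?_).trans_eq (by rw [Real.log_pow]; norm_num)
        refine le_trans (Nat.cast_le.2 hmle) ?_
        push_cast
        rw [pow_succ' (P : ℝ) 4]
        refine mul_le_mul_of_nonneg_right ?_ (by positivity)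
        have : (P : ℝ) ^ (1 / 4 : ℝ) ≤ P :=
          Real.rpow_le_self_of_one_le (Nat.one_le_cast.2 (by omega)) (by norm_num)
        linarith
      refine Nat.cast_le (α := ℝ).1 (le_trans ?_ (Nat.le_ceil _))
      rw [le_div_iff₀ hδ]
      refine le_of_mul_le_mul_right ?_ hl
      linarith
    rw [← card_image_of_injective S (pt_injective hW)]
    refine value_fibre_card (P := P) hQ (S.image (pt W)) (fun u hu => ?_) (fun u hu => ?_) hT
      (lt_of_lt_of_le ?_ hrough)
    · obtain ⟨w, hw, rfl⟩ := mem_image.1 hu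
      exact (hmem w hw).1
    · obtain ⟨w, hw, rfl⟩ := mem_image.1 hu
      exact (hmem w hw).2
    refine Nat.cast_lt (α := ℝ).1 (lt_of_le_of_lt ?_ hbigreal)
    push_cast
    rw [show (9 / 4 : ℝ) = 1 / 4 + 2 by norm_num, Real.rpow_add hP0, Real.rpow_two]
    have h4 : (4 : ℝ) ≤ (P : ℝ) ^ (1 / 4 : ℝ) := by
      have : (0 : ℝ) ≤ K := Nat.cast_nonneg K
      linarith
    have := mul_le_mul_of_nonneg_right h4 (sq_nonneg (P : ℝ))
    linarith
  have hcard : (goodPairs f δ W n).card ≤ (Q + 1) ^ T * (goodValues f δ W n).card :=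
    card_le_mul_card_image _ _ fun m _ => hfib m
  have hcard' : ((goodPairs f δ W n).card : ℝ) ≤
      (((Q + 1) ^ T : ℕ) : ℝ) * (goodValues f δ W n).card := by exact_mod_cast hcard
  have := sq_nonneg (n : ℝ)
  linarith

/-- **The count up to `N`.** -/
theorem eventually_ncard_ge (hsep : (f.map (Int.castRingHom ℚ)).Separable) (hmon : f.Monic)
    (hdeg : f.natDegree = 3)
    (S : Set ℤ) (hS : ∀ x y : ℕ, 0 < x → 0 < y → x.Coprime y →
      Squarefree ((y : ℤ) * Thue.form f x y) → (y : ℤ) * Thue.form f x y ∈ S) :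
    ∃ c : ℝ, 0 < c ∧ ∀ᶠ N : ℝ in atTop, c * Real.sqrt N ≤
      ({d : ℤ | Squarefree d ∧ |(d : ℝ)| ≤ N ∧ d ∈ S}.ncard : ℝ) := by
  obtain ⟨W, δ, C, hW, hC, hgood⟩ := exists_eventually_goodValues hsep hmon hdeg
  set K := ∑ i ∈ range 4, (f.coeff i).natAbs
  set M₀ : ℝ := ((K : ℝ) + 1) * (W : ℝ) ^ 8 with hM₀
  have hM0 : 0 < M₀ := by positivity
  refine ⟨1 / (8 * C * Real.sqrt M₀), by positivity, ?_⟩
  have ht : Tendsto (fun N : ℝ => (N / M₀) ^ ((1 : ℝ) / 4)) atTop atTop :=
    (tendsto_rpow_atTop (by norm_num)).comp (tendsto_id.atTop_div_const hM0)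
  filter_upwards [(tendsto_nat_floor_atTop.comp ht).eventually hgood,
    ht.eventually (eventually_ge_atTop 2), eventually_ge_atTop 0] with N hN h2 hN0
  set t := (N / M₀) ^ ((1 : ℝ) / 4) with ht'
  simp only [Function.comp_apply, ← ht'] at hN
  set n := ⌊t⌋₊
  have hn : (n : ℝ) ≤ t := Nat.floor_le (by linarith)
  have hn' : t / 2 ≤ n := by linarith [Nat.lt_floor_add_one t]
  have ht4 : t ^ 4 = N / M₀ := by
    rw [ht', ← Real.rpow_natCast _ 4, ← Real.rpow_mul (by positivity)]
    norm_num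
  have ht2 : t ^ 2 = Real.sqrt N / Real.sqrt M₀ := by
    rw [← Real.sqrt_div hN0, ← ht4, show t ^ 4 = (t ^ 2) ^ 2 by ring,
      Real.sqrt_sq (sq_nonneg t)]
  have hfin : {d : ℤ | Squarefree d ∧ |(d : ℝ)| ≤ N ∧ d ∈ S}.Finite := by
    refine ((Set.finite_Icc (-(⌊N⌋₊ : ℤ)) ⌊N⌋₊)).subset fun m hm => ?_
    have h := hm.2.1
    rw [← Int.cast_abs, ← Nat.cast_natAbs] at h
    have h' : m.natAbs ≤ ⌊N⌋₊ := Nat.le_floor h
    simp only [Set.mem_Icc]
    omega
  have hset : (goodValues f δ W n).card ≤ {d : ℤ | Squarefree d ∧ |(d : ℝ)| ≤ N ∧ d ∈ S}.ncard := by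
    refine le_trans ?_ (Set.ncard_image_le (f := Int.natAbs) hfin)
    rw [← Set.ncard_coe_finset]
    refine Set.ncard_le_ncard (fun m hm => ?_) (hfin.image _)
    obtain ⟨w, hw, rfl⟩ := mem_image.1 hm
    obtain ⟨hw1, hsq, -⟩ := mem_filter.1 hw
    obtain ⟨hx1, hx2, hy1, hy2⟩ := pt_bounds hW hw1
    set v := pt W w
    have habs : ((v.2 : ℤ) * Thue.form f v.1 v.2).natAbs = twistValue f v := by
      rw [Int.natAbs_mul, Int.natAbs_natCast, twistValue, value]
    have hsq' : Squarefree ((v.2 : ℤ) * Thue.form f v.1 v.2) := by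
      rw [← Int.squarefree_natAbs, habs]
      exact hsq
    refine ⟨(v.2 : ℤ) * Thue.form f v.1 v.2,
      ⟨hsq', ?_, hS _ _ hx1 hy1 (coprime_of_squarefree (by omega) hsq) hsq'⟩, habs⟩
    rw [← Int.cast_abs, ← Nat.cast_natAbs, habs]
    have h5 : twistValue f v ≤ K * W ^ 8 * n ^ 4 :=
      (Nat.mul_le_mul hy2 (value_le_cube hdeg hx2 hy2)).trans_eq (by ring)
    calc ((twistValue f v : ℕ) : ℝ) ≤ (K : ℝ) * (W : ℝ) ^ 8 * (n : ℝ) ^ 4 := by exact_mod_cast h5
      _ ≤ M₀ * t ^ 4 := by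
          gcongr
          rw [hM₀]
          gcongr
          linarith
      _ = N := by rw [ht4]; field_simp
  have e : 1 / (8 * C * Real.sqrt M₀) * Real.sqrt N = t ^ 2 / (8 * C) := by
    rw [ht2]; ring
  rw [e, div_le_iff₀ (by positivity)]
  have h3 : t ^ 2 / 4 ≤ (n : ℝ) ^ 2 := by
    have := pow_le_pow_left₀ (by linarith) hn' 2
    linarith [show (t / 2) ^ 2 = t ^ 2 / 4 by ring]
  have h4 : (C : ℝ) * (goodValues f δ W n).card ≤
      C * ({d : ℤ | Squarefree d ∧ |(d : ℝ)| ≤ N ∧ d ∈ S}.ncard : ℝ) :=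
    mul_le_mul_of_nonneg_left (Nat.cast_le.2 hset) (Nat.cast_nonneg C)
  linarith

end FA.TwistHalf

end
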