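import Fermat.Agent.TwistHalf.Count
import Fermat.Agent.Root.SummaryTwistRanks

/-!
# A point on the twist by `y · F (x, y)`

`F (x, y) = x³ + A x y² + B y³` is the short cubic with integer coefficients, separable as `Δ ≠ 0`.
On the twist by `d = y F (x, y)` the point `(d x / (y q²), d² / (y² q³))` is rational and not of
order two, and only finitely many twists have such a point of finite order.
-/

set_option autoImplicit false

noncomputable section

open Polynomial Filter WeierstrassCurve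
open scoped WeierstrassCurve.Affine

namespace FA.TwistHalf

/-- **The point is not killed by two.** -/
theorem exists_point_not_two_torsion (E : WeierstrassCurve ℚ) {d u v : ℚ} (hv : v ≠ 0)
    (he : v ^ 2 = u ^ 3 - 27 * (d ^ 2 * E.c₄) * u - 54 * (d ^ 3 * E.c₆)) :
    ∃ R : (FA.Twists.quadTwist E d).toAffine.Point, 2 • R ≠ 0 := by
  classical
  set W := FA.Twists.quadTwist E d with hW
  have hns : W.toAffine.Nonsingular u v := by
    rw [Affine.nonsingular_iff']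
    refine ⟨(Affine.equation_iff _ _).2 ?_, Or.inr ?_⟩
    · simp only [hW, FA.Twists.quadTwist, FA.Twists.short]
      linear_combination he
    · simp only [hW, FA.Twists.quadTwist, FA.Twists.short]
      simpa using hv
  refine ⟨.some u v hns, fun h0 => hv ?_⟩
  rw [two_nsmul] at h0
  have h1 := eq_neg_of_add_eq_zero_left h0
  rw [Affine.Point.neg_some, Affine.Point.some.injEq] at h1
  have hY : v = -v := by
    simpa [Affine.negY, hW, FA.Twists.quadTwist, FA.Twists.short] using h1.2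
  linarith

/-- The short cubic of nonzero discriminant is separable. -/
theorem separable_shortCubic {A B : ℤ} (h : 4 * (A : ℚ) ^ 3 + 27 * (B : ℚ) ^ 2 ≠ 0) :
    ((X ^ 3 + C A * X + C B : ℤ[X]).map (Int.castRingHom ℚ)).Separable := by
  obtain ⟨D, hD⟩ : ∃ D : ℚ, D = -(4 * (A : ℚ) ^ 3 + 27 * (B : ℚ) ^ 2) := ⟨_, rfl⟩
  have hD0 : D ≠ 0 := hD ▸ neg_ne_zero.2 h
  rw [separable_def']
  refine ⟨C D⁻¹ * (C (18 * (A : ℚ)) * X - C (27 * (B : ℚ))),
    C D⁻¹ * (C (-6 * (A : ℚ)) * X ^ 2 + C (9 * (B : ℚ)) * X - C (4 * (A : ℚ) ^ 2)), ?_⟩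
  have hmul : C D⁻¹ * C D = (1 : ℚ[X]) := by rw [← C_mul, inv_mul_cancel₀ hD0, C_1]
  have e : ((X ^ 3 + C A * X + C B : ℤ[X]).map (Int.castRingHom ℚ)) =
      X ^ 3 + C (A : ℚ) * X + C (B : ℚ) := by
    simp only [Polynomial.map_add, Polynomial.map_mul, Polynomial.map_pow, map_X, map_C]
    rfl
  have e' : derivative (X ^ 3 + C (A : ℚ) * X + C (B : ℚ)) = C 3 * X ^ 2 + C (A : ℚ) := by
    simp [map_ofNat]
    ring
  rw [e, e', ← hmul, hD]
  simp only [C_neg, C_add, C_mul, C_pow, map_ofNat]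
  ring

/-- **Twists of positive rank.** -/
theorem eventually_twists_ge (E : WeierstrassCurve ℚ) [E.IsElliptic] :
    ∃ c : ℝ, 0 < c ∧ ∀ᶠ X : ℝ in atTop, c * Real.sqrt X ≤
      ({d : ℤ | Squarefree d ∧ |(d : ℝ)| ≤ X ∧
        ∃ R : (FA.Twists.quadTwist E d).toAffine.Point, addOrderOf R = 0}.ncard : ℝ) := by
  set n₄ := E.c₄.num
  set d₄ : ℤ := (E.c₄.den : ℤ)
  set n₆ := E.c₆.num
  set d₆ : ℤ := (E.c₆.den : ℤ)
  have hd4 : (d₄ : ℚ) ≠ 0 := by simp [d₄]
  have hd6 : (d₆ : ℚ) ≠ 0 := by simp [d₆]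
  set q : ℚ := (d₄ : ℚ) * d₆ with hq
  have hq0 : q ≠ 0 := mul_ne_zero hd4 hd6
  have e4 : E.c₄ = (n₄ : ℚ) / d₄ := by simp [n₄, d₄, Rat.num_div_den]
  have e6 : E.c₆ = (n₆ : ℚ) / d₆ := by simp [n₆, d₆, Rat.num_div_den]
  set A : ℤ := -27 * n₄ * d₄ ^ 3 * d₆ ^ 4 with hA
  set B : ℤ := -54 * n₆ * d₄ ^ 6 * d₆ ^ 5 with hB
  have hAq : (A : ℚ) = -27 * E.c₄ * q ^ 4 := by
    rw [hA, hq, e4]; push_cast; field_simp
  have hBq : (B : ℚ) = -54 * E.c₆ * q ^ 6 := by
    rw [hB, hq, e6]; push_cast; field_simp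
  set f : ℤ[X] := X ^ 3 + C A * X + C B with hf
  have hdeg : f.natDegree = 3 := by rw [hf]; compute_degree!
  have hmon : f.Monic := by rw [hf]; monicity!
  have hsep : (f.map (Int.castRingHom ℚ)).Separable := by
    refine separable_shortCubic ?_
    rw [hAq, hBq, show 4 * (-27 * E.c₄ * q ^ 4) ^ 3 + 27 * (-54 * E.c₆ * q ^ 6) ^ 2 =
      -(78732 * q ^ 12 * (E.c₄ ^ 3 - E.c₆ ^ 2)) by ring, ← E.c_relation, neg_ne_zero]
    exact mul_ne_zero (mul_ne_zero (by norm_num) (pow_ne_zero _ hq0))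
      (mul_ne_zero (by norm_num) E.isUnit_Δ.ne_zero)
  have hform : ∀ x y : ℤ, Thue.form f x y = x ^ 3 + A * x * y ^ 2 + B * y ^ 3 := fun x y => by
    rw [Thue.form, hdeg]
    simp [-eq_intCast, -map_intCast, Finset.sum_range_succ, hf, coeff_X, coeff_C]
    ring
  set S : Set ℤ := {d | ∃ R : (FA.Twists.quadTwist E d).toAffine.Point, 2 • R ≠ 0} with hS
  obtain ⟨c, hc, hev⟩ := eventually_ncard_ge hsep hmon hdeg S fun x y hx hy _ hsq => by
    have hd0 : (((y : ℤ) * Thue.form f x y : ℤ) : ℚ) ≠ 0 := Int.cast_ne_zero.2 hsq.ne_zero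
    have hy0 : (y : ℚ) ≠ 0 := Nat.cast_ne_zero.2 hy.ne'
    refine exists_point_not_two_torsion E
      (u := (((y : ℤ) * Thue.form f x y : ℤ) : ℚ) * x / (y * q ^ 2))
      (v := (((y : ℤ) * Thue.form f x y : ℤ) : ℚ) ^ 2 / ((y : ℚ) ^ 2 * q ^ 3))
      (div_ne_zero (pow_ne_zero _ hd0) (mul_ne_zero (pow_ne_zero _ hy0) (pow_ne_zero _ hq0))) ?_
    rw [hform]
    push_cast
    rw [hAq, hBq]
    field_simp
    ring
  set Exc := {d : ℤ | Squarefree d ∧ ∃ R : (FA.Twists.quadTwist E d).toAffine.Point,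
    IsOfFinAddOrder R ∧ 2 • R ≠ 0}
  have hEfin : Exc.Finite := FA.Summary.finite_twists_torsion E
  refine ⟨c / 2, by positivity, ?_⟩
  filter_upwards [hev,
    (Real.tendsto_sqrt_atTop).eventually (eventually_ge_atTop (2 * Exc.ncard / c))] with N h1 h4
  set U := {d : ℤ | Squarefree d ∧ |(d : ℝ)| ≤ N ∧
    ∃ R : (FA.Twists.quadTwist E d).toAffine.Point, addOrderOf R = 0}
  have hUfin : U.Finite := by
    refine ((Set.finite_Icc (-(⌊N⌋₊ : ℤ)) ⌊N⌋₊)).subset fun m hm => ?_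
    have h := hm.2.1
    rw [← Int.cast_abs, ← Nat.cast_natAbs] at h
    have h' : m.natAbs ≤ ⌊N⌋₊ := Nat.le_floor h
    simp only [Set.mem_Icc]
    omega
  have hcard : {d : ℤ | Squarefree d ∧ |(d : ℝ)| ≤ N ∧ d ∈ S}.ncard ≤
      U.ncard + Exc.ncard := by
    refine (Set.ncard_le_ncard ?_ (hUfin.union hEfin)).trans (Set.ncard_union_le _ _)
    rintro m ⟨hm1, hm2, R, hR⟩
    rcases Nat.eq_zero_or_pos (addOrderOf R) with h | h
    · exact Or.inl ⟨hm1, hm2, R, h⟩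
    · exact Or.inr ⟨hm1, R, addOrderOf_pos_iff.1 h, hR⟩
  have h5 : (({d : ℤ | Squarefree d ∧ |(d : ℝ)| ≤ N ∧ d ∈ S}.ncard : ℕ) : ℝ) ≤
      (U.ncard : ℝ) + Exc.ncard := by exact_mod_cast hcard
  rw [div_le_iff₀ hc] at h4
  linarith

end FA.TwistHalf

end
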