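import Fermat.Agent.ErdosMahler.Main
import Fermat.Agent.SquarefreeValues.Sieve
import Mathlib.NumberTheory.Primorial

/-!
# Squarefree values of `y · F (x, y)`

For `W` the primorial of `M` put `(x, y) = (W² a + 1, W (W b + 1))`, `a, b < n`. No `p² ≤ M²`
divides `y F (x, y)`; a prime `p ≤ P = W² n` spoils at most `(Q + 2) n² / p² + (Q + 4) n` pairs
and a larger one at most `Q` coprime pairs, two pairs in one class having determinant zero.
-/

set_option autoImplicit false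

noncomputable section

open Polynomial Finset Filter
open scoped Topology

namespace FA.TwistHalf

open FA.ErdosMahler
open FA.RichertValues (rootMod)

variable {f : ℤ[X]}

/-- The pair of the indices `(a, b)`. -/
def pt (W : ℕ) (w : ℕ × ℕ) : ℕ × ℕ :=
  (W ^ 2 * w.1 + 1, W * (W * w.2 + 1))

/-- The value `|y F (x, y)|`. -/
def twistValue (f : ℤ[X]) (v : ℕ × ℕ) : ℕ :=
  v.2 * value f v

theorem pt_injective {W : ℕ} (hW : 0 < W) : Function.Injective (pt W) := fun u v e => by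
  simp only [pt, Prod.mk.injEq] at e
  exact Prod.ext (Nat.eq_of_mul_eq_mul_left (pow_pos hW 2) (Nat.add_right_cancel e.1))
    (Nat.eq_of_mul_eq_mul_left hW (Nat.add_right_cancel (Nat.eq_of_mul_eq_mul_left hW e.2)))

theorem pt_bounds {W n : ℕ} (hW : 0 < W) {w : ℕ × ℕ} (hw : w ∈ range n ×ˢ range n) :
    1 ≤ (pt W w).1 ∧ (pt W w).1 ≤ W ^ 2 * n ∧ 1 ≤ (pt W w).2 ∧ (pt W w).2 ≤ W ^ 2 * n := by
  simp only [mem_product, mem_range] at hw
  have h1 : W ^ 2 * (w.1 + 1) ≤ W ^ 2 * n := Nat.mul_le_mul_left _ hw.1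
  have h2 : W ^ 2 * (w.2 + 1) ≤ W ^ 2 * n := Nat.mul_le_mul_left _ hw.2
  have h3 : 1 ≤ W ^ 2 := Nat.one_le_pow _ _ hW
  have h4 : W * (W * w.2 + 1) = W ^ 2 * w.2 + W := by ring
  have h5 : W ≤ W ^ 2 := Nat.le_self_pow two_ne_zero W
  simp only [pt, h4]
  rw [mul_add, mul_one] at h1 h2
  omega

theorem mem_coprime_pairs {P : ℕ} {v : ℕ × ℕ} (h1 : 1 ≤ v.1) (h2 : v.1 ≤ P) (h3 : 1 ≤ v.2)
    (h4 : v.2 ≤ P) (h : v.1.Coprime v.2) : v ∈ pairs 1 P :=
  mem_filter.2 ⟨mem_product.2 ⟨mem_Icc.2 ⟨h1, h2⟩, mem_image.2 ⟨v.2 - 1,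
    mem_range.2 (by omega), by omega⟩⟩, h⟩

theorem coprime_of_squarefree (hdeg : 0 < f.natDegree) {v : ℕ × ℕ}
    (h : Squarefree (twistValue f v)) : v.1.Coprime v.2 := by
  by_contra hc
  obtain ⟨p, hp, hpx, hpy⟩ := Nat.Prime.not_coprime_iff_dvd.1 hc
  have hF : p ∣ value f v := by
    rw [value, ← Int.natCast_dvd, Thue.form]
    refine dvd_sum fun i _ => ?_
    rcases Nat.eq_zero_or_pos i with rfl | hi
    · exact ((dvd_pow (Int.natCast_dvd_natCast.2 hpy) (by omega)).mul_left _)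
    · exact ((dvd_pow (Int.natCast_dvd_natCast.2 hpx) hi.ne').mul_left _).mul_right _
  exact hp.ne_one (Nat.isUnit_iff.1 (h p (mul_dvd_mul hpy hF)))

theorem coprime_of_dvd_mul_add_one {c p t : ℕ} (hp : p.Prime) (h : p ∣ c * t + 1) :
    Nat.Coprime p c :=
  hp.coprime_iff_not_dvd.2 fun hd =>
    hp.ne_one (Nat.dvd_one.1 ((Nat.dvd_add_right (hd.mul_right t)).1 h))

/-- The `t < n` with `p ^ k` dividing `c t + 1`. -/
theorem linear_card {n c p k : ℕ} (hp : p.Prime) (hk : k ≠ 0) :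
    (((range n).filter fun t => p ^ k ∣ c * t + 1).card : ℝ) ≤ (n : ℝ) / (p ^ k : ℕ) + 1 := by
  refine class_card _ (fun t ht => (mem_range.1 (mem_filter.1 ht).1).le) fun t ht t' ht' => ?_
  have h1 := (mem_filter.1 ht).2
  have h2 := (mem_filter.1 ht').2
  refine Nat.ModEq.cancel_left_of_coprime (c := c)
    ((coprime_of_dvd_mul_add_one hp ((dvd_pow_self p hk).trans h1)).pow_left k) ?_
  exact Nat.ModEq.add_right_cancel' 1
    ((Nat.modEq_zero_iff_dvd.2 h1).trans (Nat.modEq_zero_iff_dvd.2 h2).symm)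

/-- The pairs at which a small prime `p` spoils squarefreeness. -/
def badPairs (f : ℤ[X]) (W n p : ℕ) : Finset (ℕ × ℕ) :=
  (range n ×ˢ range n).filter fun w =>
    (p ∣ (pt W w).1 ∧ p ∣ (pt W w).2) ∨ p ^ 2 ∣ (pt W w).2 ∨
      (¬p ∣ (pt W w).2 ∧ p ^ 2 ∣ value f (pt W w))

/-- **The bad pairs of one prime.** -/
theorem badPairs_card {W n p Q : ℕ} (hp : p.Prime) (hpW : ¬p ∣ W)
    (hQ : rootMod f (p ^ 2) ≤ Q) :
    ((badPairs f W n p).card : ℝ) ≤ (Q + 2) * (n : ℝ) ^ 2 / p ^ 2 + (Q + 4) * n := by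
  rcases Nat.eq_zero_or_pos n with rfl | hn
  · simp [badPairs]
  have hcW : Nat.Coprime p W := hp.coprime_iff_not_dvd.2 hpW
  have : NeZero (p ^ 2) := ⟨(pow_pos hp.pos 2).ne'⟩
  set C := ((range n).filter fun a => p ^ 1 ∣ W ^ 2 * a + 1) ×ˢ
    ((range n).filter fun b => p ^ 1 ∣ W * b + 1) with hC
  set Y := (range n) ×ˢ ((range n).filter fun b => p ^ 2 ∣ W * b + 1) with hY
  set G : ℕ → Finset ℕ := fun b => (range n).filter fun a =>
    ¬p ∣ (pt W (a, b)).2 ∧ p ^ 2 ∣ value f (pt W (a, b))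
  have hsub : badPairs f W n p ⊆
      C ∪ (Y ∪ (range n).biUnion fun b => (G b).image fun a => (a, b)) := by
    intro w hw
    obtain ⟨hw1, hw2⟩ := mem_filter.1 hw
    obtain ⟨ha, hb⟩ := mem_product.1 hw1
    simp only [mem_union]
    rcases hw2 with ⟨h1, h2⟩ | h | h
    · exact Or.inl (mem_product.2 ⟨mem_filter.2 ⟨ha, by rwa [pow_one]⟩,
        mem_filter.2 ⟨hb, by rw [pow_one]; exact hcW.dvd_of_dvd_mul_left h2⟩⟩)
    · exact Or.inr (Or.inl (mem_product.2 ⟨ha, mem_filter.2 ⟨hb,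
        (hcW.pow_left 2).dvd_of_dvd_mul_left h⟩⟩))
    · exact Or.inr (Or.inr (mem_biUnion.2
        ⟨w.2, hb, mem_image.2 ⟨w.1, mem_filter.2 ⟨ha, h⟩, rfl⟩⟩))
  have hC' : (C.card : ℝ) ≤ ((n : ℝ) / p + 1) * ((n : ℝ) / p + 1) := by
    rw [hC, card_product, Nat.cast_mul]
    refine mul_le_mul ((linear_card hp one_ne_zero).trans_eq (by rw [pow_one]))
      ((linear_card hp one_ne_zero).trans_eq (by rw [pow_one])) (Nat.cast_nonneg _)
      (by positivity)
  have hY' : (Y.card : ℝ) ≤ n * ((n : ℝ) / (p ^ 2 : ℕ) + 1) := by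
    rw [hY, card_product, card_range, Nat.cast_mul]
    exact mul_le_mul_of_nonneg_left (linear_card hp two_ne_zero) (Nat.cast_nonneg _)
  have hG : ∀ b, ((G b).card : ℝ) ≤ Q * ((n : ℝ) / (p ^ 2 : ℕ) + 1) := by
    intro b
    have hmem : ∀ a ∈ G b, (pt W (a, b)).2.Coprime (p ^ 2) ∧ ((p ^ 2 : ℕ) : ℤ) ∣
        f.eval (ratioMod (p ^ 2) (pt W (a, b)).1 (pt W (a, b)).2 : ℤ) := fun a ha => by
      obtain ⟨-, h1, h2⟩ := mem_filter.1 ha
      have hy := ((hp.coprime_iff_not_dvd.2 h1).symm.pow_right 2)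
      exact ⟨hy, ratioMod_root (pow_pos hp.pos 2) hy (Int.natCast_dvd.2 h2)⟩
    calc ((G b).card : ℝ)
        = ∑ r ∈ (G b).image (fun a => ratioMod (p ^ 2) (pt W (a, b)).1 (pt W (a, b)).2),
            (((G b).filter fun a =>
              ratioMod (p ^ 2) (pt W (a, b)).1 (pt W (a, b)).2 = r).card : ℝ) := by
          exact_mod_cast card_eq_sum_card_image
            (fun a => ratioMod (p ^ 2) (pt W (a, b)).1 (pt W (a, b)).2) (G b)
      _ ≤ ∑ _r ∈ (G b).image (fun a => ratioMod (p ^ 2) (pt W (a, b)).1 (pt W (a, b)).2),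
            ((n : ℝ) / (p ^ 2 : ℕ) + 1) := by
          refine sum_le_sum fun r _ => class_card _
            (fun a ha => (mem_range.1 (mem_filter.1 (mem_filter.1 ha).1).1).le)
            fun a ha a' ha' => ?_
          obtain ⟨haG, har⟩ := mem_filter.1 ha
          obtain ⟨haG', har'⟩ := mem_filter.1 ha'
          refine Nat.ModEq.cancel_left_of_coprime (c := W ^ 2)
            ((hcW.pow_left 2).pow_right 2) (Nat.ModEq.add_right_cancel' 1 ?_)
          rw [← ZMod.natCast_eq_natCast_iff]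
          show ((pt W (a, b)).1 : ZMod (p ^ 2)) = ((pt W (a', b)).1 : ZMod (p ^ 2))
          rw [← ratioMod_mul (x := (pt W (a, b)).1) (pow_pos hp.pos 2) (hmem a haG).1,
            ← ratioMod_mul (x := (pt W (a', b)).1) (pow_pos hp.pos 2) (hmem a' haG').1, har, har']
          rfl
      _ ≤ Q * ((n : ℝ) / (p ^ 2 : ℕ) + 1) := by
          rw [sum_const, nsmul_eq_mul]
          refine mul_le_mul_of_nonneg_right (Nat.cast_le.2 (le_trans (card_le_card ?_) hQ))
            (by positivity)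
          intro r hr
          obtain ⟨a, ha, rfl⟩ := mem_image.1 hr
          exact mem_filter.2 ⟨mem_range.2 (ZMod.val_lt _), (hmem a ha).2⟩
  have hbU : (((range n).biUnion fun b => (G b).image fun a => (a, b)).card : ℝ) ≤
      n * (Q * ((n : ℝ) / (p ^ 2 : ℕ) + 1)) :=
    calc (((range n).biUnion fun b => (G b).image fun a => (a, b)).card : ℝ)
        ≤ ∑ b ∈ range n, ((G b).card : ℝ) := by
          exact_mod_cast card_biUnion_le.trans (sum_le_sum fun b _ => card_image_le)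
      _ ≤ ∑ _b ∈ range n, (Q : ℝ) * ((n : ℝ) / (p ^ 2 : ℕ) + 1) := sum_le_sum fun b _ => hG b
      _ = _ := by rw [sum_const, card_range, nsmul_eq_mul]
  have hC'' : ((n : ℝ) / p + 1) * ((n : ℝ) / p + 1) ≤ (n : ℝ) ^ 2 / p ^ 2 + 3 * n := by
    have h1 : (n : ℝ) / p ≤ n := div_le_self (by positivity) (Nat.one_le_cast.2 hp.one_lt.le)
    have h2 : (1 : ℝ) ≤ n := Nat.one_le_cast.2 hn
    rw [← div_pow]
    nlinarith
  calc ((badPairs f W n p).card : ℝ) ≤ (C.card : ℝ) + ((Y.card : ℝ) +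
        ((range n).biUnion fun b => (G b).image fun a => (a, b)).card) := by
        exact_mod_cast (card_le_card hsub).trans ((card_union_le _ _).trans
          (Nat.add_le_add_left (card_union_le _ _) _))
    _ ≤ (n : ℝ) ^ 2 / p ^ 2 + 3 * n + (n * ((n : ℝ) / (p ^ 2 : ℕ) + 1) +
        n * (Q * ((n : ℝ) / (p ^ 2 : ℕ) + 1))) :=
      add_le_add (hC'.trans hC'') (add_le_add hY' hbU)
    _ = _ := by push_cast; ring

/-- A prime above the box spoils at most `Q` coprime pairs. -/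
theorem large_prime_card (hmon : f.Monic) {P p Q : ℕ} (hp : p.Prime) (hP : P < p)
    (hQ : rootMod f (p ^ 2) ≤ Q) :
    ((pairs 1 P).filter fun v => p ^ 2 ∣ value f v).card ≤ Q := by
  have : NeZero (p ^ 2) := ⟨(pow_pos hp.pos 2).ne'⟩
  have hlead : f.leadingCoeff.natAbs = 1 := by rw [hmon.leadingCoeff]; rfl
  have hdata : ∀ v ∈ (pairs 1 P).filter (fun v => p ^ 2 ∣ value f v),
      v.2.Coprime (p ^ 2) ∧ ((p ^ 2 : ℕ) : ℤ) ∣ Thue.form f v.1 v.2 := fun v hv => by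
    obtain ⟨hv1, hv2⟩ := mem_filter.1 hv
    obtain ⟨-, -, -, -, hc, -⟩ := mem_pairs hv1
    have h : ((p ^ 2 : ℕ) : ℤ) ∣ Thue.form f v.1 v.2 := Int.natCast_dvd.2 hv2
    exact ⟨(coprime_snd hp hc (by rw [hlead]; exact Nat.coprime_one_right _)
      ((Int.natCast_dvd_natCast.2 (dvd_pow_self p two_ne_zero)).trans h)).pow_right 2, h⟩
  refine (card_le_card_of_injOn (fun v => ratioMod (p ^ 2) v.1 v.2)
    (t := (range (p ^ 2)).filter fun r : ℕ => ((p ^ 2 : ℕ) : ℤ) ∣ f.eval (r : ℤ))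
    (fun v hv => mem_filter.2 ⟨mem_range.2 (ZMod.val_lt _),
      ratioMod_root (pow_pos hp.pos 2) (hdata v hv).1 (hdata v hv).2⟩)
    fun v hv v' hv' e => ?_).trans hQ
  obtain ⟨hx1, hx2, hy1, hy2, hc, -⟩ := mem_pairs (mem_filter.1 hv).1
  obtain ⟨hx1', hx2', hy1', hy2', hc', -⟩ := mem_pairs (mem_filter.1 hv').1
  simp only at e
  have hdvd : ((p ^ 2 : ℕ) : ℤ) ∣ (v.1 : ℤ) * v'.2 - v'.1 * v.2 := by
    rw [← ZMod.intCast_zmod_eq_zero_iff_dvd]
    push_cast
    rw [← ratioMod_mul (x := v.1) (pow_pos hp.pos 2) (hdata v hv).1,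
      ← ratioMod_mul (x := v'.1) (pow_pos hp.pos 2) (hdata v' hv').1, e]
    ring
  have hsnd : ∀ u ∈ pairs 1 P, u.2 ≤ P := fun u hu => by
    obtain ⟨b, hb, hb'⟩ := mem_image.1 (mem_product.1 (mem_filter.1 hu).1).2
    rw [mem_range] at hb
    omega
  have hdet : (v.1 : ℤ) * v'.2 - v'.1 * v.2 = 0 := by
    refine Int.eq_zero_of_abs_lt_dvd hdvd ?_
    have h1 : v.1 * v'.2 ≤ P * P := Nat.mul_le_mul hx2 (hsnd v' (mem_filter.1 hv').1)
    have h2 : v'.1 * v.2 ≤ P * P := Nat.mul_le_mul hx2' (hsnd v (mem_filter.1 hv).1)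
    have h3 : P * P < p ^ 2 := by rw [sq]; exact Nat.mul_lt_mul'' hP hP
    zify at h1 h2 h3
    push_cast
    rw [abs_lt]
    constructor <;> linarith [mul_nonneg (Int.natCast_nonneg v.1) (Int.natCast_nonneg v'.2),
      mul_nonneg (Int.natCast_nonneg v'.1) (Int.natCast_nonneg v.2)]
  have he : v.1 * v'.2 = v'.1 * v.2 := by exact_mod_cast sub_eq_zero.1 hdet
  have h1 : v.1 = v'.1 := Nat.dvd_antisymm (hc.dvd_of_dvd_mul_right ⟨v'.2, he.symm⟩)
    (hc'.dvd_of_dvd_mul_right ⟨v.2, he⟩)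
  refine Prod.ext h1 (Nat.eq_of_mul_eq_mul_left hx1 ?_)
  rw [he, h1]

theorem prime_sum_inv_sq_le {M P : ℕ} (hM : 0 < M) :
    ∑ p ∈ (Icc 1 P).filter (fun p => p.Prime ∧ M < p), ((p : ℝ) ^ 2)⁻¹ ≤ (M : ℝ)⁻¹ := by
  have hsub : (Icc 1 P).filter (fun p => p.Prime ∧ M < p) ⊆ Ioc M (max P M) := fun p hp => by
    obtain ⟨hp1, -, hp2⟩ := mem_filter.1 hp
    rw [mem_Icc] at hp1
    rw [mem_Ioc]
    omega
  refine (sum_le_sum_of_subset_of_nonneg hsub fun p _ _ => by positivity).trans ?_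
  refine (sum_Ioc_inv_sq_le_sub (α := ℝ) hM.ne' (le_max_right P M)).trans ?_
  linarith [show (0 : ℝ) ≤ ((max P M : ℕ) : ℝ)⁻¹ by positivity]

/-- The pairs with a nonzero value that is not squarefree. -/
def nonsquarefree (f : ℤ[X]) (W n : ℕ) : Finset (ℕ × ℕ) :=
  (range n ×ˢ range n).filter fun w =>
    ¬Squarefree (twistValue f (pt W w)) ∧ value f (pt W w) ≠ 0

/-- **Few values are not squarefree.** -/
theorem exists_eventually_nonsquarefree (hsep : (f.map (Int.castRingHom ℚ)).Separable)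
    (hmon : f.Monic) (hdeg : f.natDegree = 3) : ∃ W : ℕ, 0 < W ∧ ∀ᶠ n : ℕ in atTop,
      ((nonsquarefree f W n).card : ℝ) ≤ 3 / 20 * (n : ℝ) ^ 2 := by
  obtain ⟨Q, hQ'⟩ := SquarefreeValues.exists_rootCount_bound hsep
  have hQ : ∀ p : ℕ, p.Prime → rootMod f (p ^ 2) ≤ Q := fun p hp => by
    have h := hQ' p hp
    simp only [SquarefreeValues.rootCount, ← Nat.cast_pow] at h
    exact h
  set M := 20 * (Q + 2) with hM
  set W := primorial M with hWdef
  have hW : 0 < W := primorial_pos M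
  have hlead : f.leadingCoeff.natAbs = 1 := by rw [hmon.leadingCoeff]; rfl
  set K := ∑ i ∈ range (f.natDegree + 1), (f.coeff i).natAbs with hK
  refine ⟨W, hW, ?_⟩
  filter_upwards [SquarefreeValues.eventually_primeCounting_mul_le (W ^ 2)
      (show (0 : ℝ) < 1 / (20 * ((Q : ℝ) + 4)) by positivity),
    eventually_ge_atTop (800 * (Q + 1) ^ 2 * ((K + 1) * W ^ 6) + 1)] with n hpi hn
  set P := W ^ 2 * n with hP
  set Ps := (Icc 1 P).filter fun p => p.Prime ∧ M < p with hPs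
  set L := Nat.sqrt (K * P ^ 3) with hL
  set Pl := (Icc 1 L).filter fun p => p.Prime ∧ P < p with hPl
  have hcover : (nonsquarefree f W n).image (pt W) ⊆ (Ps.biUnion (badPairs f W n)).image (pt W) ∪
      Pl.biUnion fun p => (pairs 1 P).filter fun v => p ^ 2 ∣ value f v := by
    intro v hv
    obtain ⟨w, hw, rfl⟩ := mem_image.1 hv
    obtain ⟨hw1, hw2, hne⟩ := mem_filter.1 hw
    obtain ⟨hx1, hx2, hy1, hy2⟩ := pt_bounds hW hw1
    have hxW : Nat.Coprime (pt W w).1 W := by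
      show (W ^ 2 * w.1 + 1).Coprime W
      rw [show W ^ 2 * w.1 + 1 = 1 + (W * w.1) * W by ring]
      exact (Nat.coprime_add_mul_right_left 1 W (W * w.1)).2 (Nat.coprime_one_left W)
    by_cases hc : (pt W w).1.Coprime (pt W w).2
    swap
    · obtain ⟨q, hq, hqx, hqy⟩ := Nat.Prime.not_coprime_iff_dvd.1 hc
      refine mem_union_left _ (mem_image_of_mem _ (mem_biUnion.2 ⟨q, mem_filter.2
        ⟨mem_Icc.2 ⟨hq.one_le, (Nat.le_of_dvd (by omega) hqy).trans hy2⟩, hq, not_le.1 fun h => ?_⟩,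
        mem_filter.2 ⟨hw1, Or.inl ⟨hqx, hqy⟩⟩⟩))
      exact hq.ne_one (Nat.eq_one_of_dvd_coprimes hxW hqx (hq.dvd_primorial_iff.2 h))
    rw [Nat.squarefree_iff_prime_squarefree] at hw2
    push Not at hw2
    obtain ⟨p, hp, hpd⟩ := hw2
    rw [← sq, twistValue] at hpd
    have hnot : p ∣ (pt W w).2 → ¬p ∣ value f (pt W w) := fun hpy hpF => by
      have h := coprime_snd (f := f) (x := (pt W w).1) (y := (pt W w).2) hp hc
        (by rw [hlead]; exact Nat.coprime_one_right _) (Int.natCast_dvd.2 hpF)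
      exact hp.coprime_iff_not_dvd.1 h.symm hpy
    have hpM : M < p := by
      by_contra hle
      have hpW : p ∣ W := hp.dvd_primorial_iff.2 (not_lt.1 hle)
      have hpy : p ∣ (pt W w).2 := hpW.mul_right _
      have h1 : p ^ 2 ∣ (pt W w).2 :=
        ((hp.coprime_iff_not_dvd.2 (hnot hpy)).pow_left 2).dvd_of_dvd_mul_right hpd
      have h2 : Nat.Coprime p (W * w.2 + 1) := hp.coprime_iff_not_dvd.2 fun h =>
        hp.ne_one (Nat.dvd_one.1 ((Nat.dvd_add_right (hpW.mul_right _)).1 h))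
      have h3 : p ^ 2 ∣ W := (h2.pow_left 2).dvd_of_dvd_mul_right h1
      have hsq : Squarefree W := by
        rw [hWdef, primorial]
        refine Finset.squarefree_prod_of_pairwise_isCoprime (fun q hq q' hq' hne => ?_)
          fun q hq => (mem_filter.1 hq).2.squarefree
        exact Nat.coprime_iff_isRelPrime.1
          ((Nat.coprime_primes (mem_filter.1 hq).2 (mem_filter.1 hq').2).2 hne)
      exact hp.ne_one (Nat.isUnit_iff.1 (hsq p (by rwa [← sq])))
    by_cases hpy : p ∣ (pt W w).2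
    · refine mem_union_left _ (mem_image_of_mem _ (mem_biUnion.2 ⟨p, mem_filter.2
        ⟨mem_Icc.2 ⟨hp.one_le, (Nat.le_of_dvd (by omega) hpy).trans hy2⟩, hp, hpM⟩,
        mem_filter.2 ⟨hw1, Or.inr (Or.inl ?_)⟩⟩))
      exact ((hp.coprime_iff_not_dvd.2 (hnot hpy)).pow_left 2).dvd_of_dvd_mul_right hpd
    have hF : p ^ 2 ∣ value f (pt W w) :=
      ((hp.coprime_iff_not_dvd.2 hpy).pow_left 2).dvd_of_dvd_mul_left hpd
    by_cases hpP : p ≤ P
    · exact mem_union_left _ (mem_image_of_mem _ (mem_biUnion.2 ⟨p, mem_filter.2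
        ⟨mem_Icc.2 ⟨hp.one_le, hpP⟩, hp, hpM⟩, mem_filter.2 ⟨hw1, Or.inr (Or.inr ⟨hpy, hF⟩)⟩⟩))
    have hv := mem_coprime_pairs hx1 hx2 hy1 hy2 hc
    refine mem_union_right _ (mem_biUnion.2 ⟨p, mem_filter.2
      ⟨mem_Icc.2 ⟨hp.one_le, ?_⟩, hp, not_le.1 hpP⟩, mem_filter.2 ⟨hv, hF⟩⟩)
    rw [hL, Nat.le_sqrt', hK, ← hdeg]
    exact (Nat.le_of_dvd (Nat.pos_of_ne_zero hne) hF).trans (value_le f hx2 hy2)
  have hcard : (nonsquarefree f W n).card ≤ (Ps.biUnion (badPairs f W n)).card + Pl.card * Q := by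
    rw [← card_image_of_injective (nonsquarefree f W n) (pt_injective hW)]
    refine (card_le_card hcover).trans ((card_union_le _ _).trans
      (add_le_add card_image_le (card_biUnion_le.trans ?_)))
    rw [← smul_eq_mul, ← sum_const]
    exact sum_le_sum fun p hp =>
      large_prime_card hmon (mem_filter.1 hp).2.1 (mem_filter.1 hp).2.2
        (hQ p (mem_filter.1 hp).2.1)
  have hsmall : ((Ps.biUnion (badPairs f W n)).card : ℝ) ≤ 2 / 20 * (n : ℝ) ^ 2 := by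
    calc ((Ps.biUnion (badPairs f W n)).card : ℝ) ≤ ∑ p ∈ Ps, ((badPairs f W n p).card : ℝ) := by
          exact_mod_cast card_biUnion_le
      _ ≤ ∑ p ∈ Ps, (((Q : ℝ) + 2) * (n : ℝ) ^ 2 * ((p : ℝ) ^ 2)⁻¹ + ((Q : ℝ) + 4) * n) :=
          sum_le_sum fun p hp => by
            obtain ⟨-, hp', hpM⟩ := mem_filter.1 hp
            refine (badPairs_card hp' (fun h => ?_) (hQ p hp')).trans_eq
              (by rw [div_eq_mul_inv])
            exact absurd (hp'.dvd_primorial_iff.1 h) (not_le.2 hpM)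
      _ = ((Q : ℝ) + 2) * (n : ℝ) ^ 2 * ∑ p ∈ Ps, ((p : ℝ) ^ 2)⁻¹ +
            Ps.card * (((Q : ℝ) + 4) * n) := by
          rw [sum_add_distrib, ← mul_sum, sum_const, nsmul_eq_mul]
      _ ≤ ((Q : ℝ) + 2) * (n : ℝ) ^ 2 * (M : ℝ)⁻¹ +
            1 / (20 * ((Q : ℝ) + 4)) * n * (((Q : ℝ) + 4) * n) := by
          refine add_le_add (mul_le_mul_of_nonneg_left (prime_sum_inv_sq_le (by omega))
            (by positivity)) (mul_le_mul_of_nonneg_right ((Nat.cast_le.2 ?_).trans hpi)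
              (by positivity))
          rw [Nat.primeCounting_eq_primeCounting'_succ, ← Nat.primesBelow_card_eq_primeCounting']
          refine card_le_card fun p hp => Nat.mem_primesBelow.2 ?_
          obtain ⟨hp1, hp2, -⟩ := mem_filter.1 hp
          rw [mem_Icc] at hp1
          exact ⟨by omega, hp2⟩
      _ = _ := by
          rw [hM]
          push_cast
          field_simp
          ring
  have hlarge : 20 * (Pl.card * Q) ≤ n ^ 2 := by
    have h1 : Pl.card ≤ L := (card_filter_le _ _).trans_eq (by simp)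
    have h2 : L ^ 2 ≤ K * P ^ 3 := Nat.sqrt_le' _
    refine (Nat.pow_le_pow_iff_left two_ne_zero).1 ?_
    calc (20 * (Pl.card * Q)) ^ 2 ≤ (20 * (L * Q)) ^ 2 := by gcongr
      _ = 400 * Q ^ 2 * L ^ 2 := by ring
      _ ≤ 400 * Q ^ 2 * (K * P ^ 3) := Nat.mul_le_mul_left _ h2
      _ = 400 * Q ^ 2 * (K * W ^ 6) * n ^ 3 := by rw [hP]; ring
      _ ≤ (800 * (Q + 1) ^ 2 * ((K + 1) * W ^ 6) + 1) * n ^ 3 := by
          refine Nat.mul_le_mul_right _ (le_add_right ?_)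
          gcongr <;> omega
      _ ≤ n * n ^ 3 := Nat.mul_le_mul_right _ hn
      _ = (n ^ 2) ^ 2 := by ring
  have h1 : ((nonsquarefree f W n).card : ℝ) ≤
      ((Ps.biUnion (badPairs f W n)).card : ℝ) + ((Pl.card * Q : ℕ) : ℝ) := by
    exact_mod_cast hcard
  have h2 : (20 : ℝ) * ((Pl.card * Q : ℕ) : ℝ) ≤ (n : ℝ) ^ 2 := by exact_mod_cast hlarge
  linarith

end FA.TwistHalf

end
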